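import Fermat.Agent.H97.Hasse.Interfaces
import Fermat.Agent.H73.KummerRamKD2

/-!
# P-CFT / [HASSE], row HS-B3: norm approximation

`normApprox : DecClosedStatement → DecDenseStatement → NormApproxStatement`: a norm from the
local field `M E` (`E = K ⊔ decField A`) is a `v`-adic limit of global norms from `M`.
-/

set_option autoImplicit false

noncomputable section

open NumberField IsDedekindDomain
open scoped Pointwise

namespace Fermat.Agent.H87.Hasse

open Fermat.Agent.H97.Hasse Fermat.Agent.H78.CFT Fermat.Agent.H61.CFT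
open Fermat.Agent.H54.Cft (LiesOverHeightOne)

/-! ### Places of `ℚ̄` over `q` -/

section place

variable {A : ValuationSubring Qb} {q : ℕ}

theorem natCast_mem (A : ValuationSubring Qb) (n : ℕ) : (n : Qb) ∈ A := by
  induction n with
  | zero => simp
  | succ n ih =>
    rw [Nat.cast_succ]
    exact A.add_mem _ _ ih A.one_mem

theorem intCast_mem (A : ValuationSubring Qb) (n : ℤ) : (n : Qb) ∈ A := by
  cases n with
  | ofNat n => simp
  | negSucc n =>
    rw [Int.cast_negSucc]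
    exact A.neg_mem _ (natCast_mem A _)

theorem natCast_pow_mem (A : ValuationSubring Qb) (q n : ℕ) : (q : Qb) ^ n ∈ A :=
  A.pow_mem (natCast_mem A q) n

theorem natCast_ne_zero (hq : q.Prime) : (q : Qb) ≠ 0 :=
  Nat.cast_ne_zero.mpr hq.ne_zero

/-- An integer prime to `q` is a unit at a place over `q`. -/
theorem valuation_intCast_eq_one (hq : q.Prime) (hA : A.LiesOverPrime q) {c : ℤ}
    (hc : ¬ (q : ℤ) ∣ c) : A.valuation (c : Qb) = 1 := by
  have hcop : IsCoprime c (q : ℤ) := by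
    rw [isCoprime_comm]
    exact (Int.isCoprime_iff_gcd_eq_one.mpr
      ((Nat.Prime.coprime_iff_not_dvd hq).mpr (by
        intro h
        exact hc (Int.natCast_dvd.mpr h))))
  obtain ⟨a, b, hab⟩ := hcop
  have h1 : (a : Qb) * (c : Qb) = 1 - (b : Qb) * (q : Qb) := by
    have := congrArg (Int.cast : ℤ → Qb) hab
    push_cast at this
    linear_combination this
  have h2 : A.valuation ((b : Qb) * (q : Qb)) < 1 := by
    rw [map_mul]
    exact mul_lt_one_of_nonneg_of_lt_one_right ((A.valuation_le_one_iff _).mpr (intCast_mem A b))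
      zero_le (A.mem_nonunits_iff.mp hA)
  have h3 : A.valuation ((a : Qb) * (c : Qb)) = 1 := by
    rw [h1]
    exact Valuation.map_one_sub_of_lt _ h2
  rw [map_mul] at h3
  have ha : A.valuation (a : Qb) ≤ 1 := (A.valuation_le_one_iff _).mpr (intCast_mem A a)
  have hc' : A.valuation (c : Qb) ≤ 1 := (A.valuation_le_one_iff _).mpr (intCast_mem A c)
  refine le_antisymm hc' ?_
  by_contra hlt
  rw [not_le] at hlt
  have : A.valuation (a : Qb) * A.valuation (c : Qb) < 1 :=
    mul_lt_one_of_nonneg_of_lt_one_right ha zero_le hlt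
  rw [h3] at this
  exact lt_irrefl _ this

/-- Every element of `ℚ̄` becomes integral at `A` after multiplication by a power of `q`. -/
theorem exists_mul_pow_mem (hq : q.Prime) (hA : A.LiesOverPrime q) (x : Qb) :
    ∃ N : ℕ, x * (q : Qb) ^ N ∈ A := by
  have hgal := Fermat.Agent.H73.KD2.isGalois_Qbar_kd2
  have hx : IsIntegral ℚ x := Algebra.IsSeparable.isIntegral ℚ x
  obtain ⟨⟨c, hc⟩, hcx⟩ := IsIntegral.exists_multiple_integral_of_isLocalization
    (nonZeroDivisors ℤ) x hx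
  have hc0 : c ≠ 0 := nonZeroDivisors.ne_zero hc
  have hcx' : IsIntegral ℤ ((c : Qb) * x) := by
    have e : (⟨c, hc⟩ : nonZeroDivisors ℤ) • x = (c : Qb) * x := by
      rw [Submonoid.smul_def, zsmul_eq_mul]
    rwa [e] at hcx
  have hmem : (c : Qb) * x ∈ A := by
    have h2 : IsIntegral A ((c : Qb) * x) := IsIntegral.tower_top (R := ℤ) hcx'
    obtain ⟨y, hy⟩ := IsIntegrallyClosed.isIntegral_iff.mp h2
    rw [← hy]
    exact y.2
  -- `c = q ^ e * c'` with `c'` prime to `q`
  obtain ⟨e, c', hc', hcc'⟩ := Nat.exists_eq_pow_mul_and_not_dvd (Int.natAbs_ne_zero.mpr hc0) q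
    hq.ne_one
  have hc'1 : A.valuation ((c' : ℤ) : Qb) = 1 :=
    valuation_intCast_eq_one hq hA (by
      intro h
      exact hc' (Int.natCast_dvd_natCast.mp h))
  refine ⟨e, ?_⟩
  rw [← A.valuation_le_one_iff] at hmem ⊢
  have h3 : A.valuation (c : Qb) = A.valuation ((q : Qb) ^ e) := by
    have h4 : A.valuation (c : Qb) = A.valuation ((c.natAbs : ℤ) : Qb) := by
      rcases Int.natAbs_eq c with h | h
      · rw [← h]
      · conv_lhs => rw [h]
        rw [Int.cast_neg, Valuation.map_neg]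
    rw [h4, hcc']
    push_cast
    rw [map_mul]
    have : A.valuation ((c' : ℕ) : Qb) = 1 := by
      simpa using hc'1
    rw [this, mul_one]
  rw [map_mul, mul_comm, ← h3, ← map_mul]
  exact hmem

end place

/-! ### The dictionary between `A` and the prime `v` of `K` under it -/

section dict

variable {K : IntermediateField ℚ Qb} [NumberField K] {A : ValuationSubring Qb}
  {v : HeightOneSpectrum (𝓞 K)} {q : ℕ}

/-- An element of `K` which is integral at `A` is integral at `v`. -/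
theorem valuation_le_one_of_mem (hAv : LiesOverHeightOne K A v) (x : K)
    (hx : (x : Qb) ∈ A) : v.valuation K x ≤ 1 := by
  by_contra hlt
  rw [not_le] at hlt
  have hx0 : x ≠ 0 := by
    rintro rfl
    rw [map_zero] at hlt
    exact not_lt.mpr zero_le hlt
  have hinv : v.valuation K x⁻¹ < 1 := by
    rw [map_inv₀]
    exact inv_lt_one_of_one_lt₀ hlt
  obtain ⟨n, d, hnd⟩ := v.exists_primeCompl_mul_eq_of_integer x⁻¹ hinv.le
  have hd1 : v.valuation K (algebraMap (𝓞 K) K (d : 𝓞 K)) = 1 :=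
    v.valuation_eq_one_iff_notMem.mpr d.2
  have hn : n ∈ v.asIdeal := by
    have hnK : v.valuation K (algebraMap (𝓞 K) K n) < 1 := by
      rw [← hnd, map_mul, hd1, mul_one]
      exact hinv
    exact (v.valuation_lt_one_iff_mem n).mp hnK
  have hnA : A.valuation (((n : K)) : Qb) < 1 := A.mem_nonunits_iff.mp (hAv n hn)
  have hdA : A.valuation ((((d : 𝓞 K) : K)) : Qb) = 1 :=
    Fermat.Agent.H73.KD2.valuation_eq_one_of_notMem hAv d.2
  have hxA : A.valuation (x : Qb) ≤ 1 := (A.valuation_le_one_iff _).mpr hx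
  have e : ((((d : 𝓞 K) : K)) : Qb) = (x : Qb) * (((n : K)) : Qb) := by
    have h1 : (((d : 𝓞 K) : K)) = x * (n : K) := by
      have h2 : x⁻¹ * (((d : 𝓞 K) : K)) = (n : K) := hnd
      rw [← h2, ← mul_assoc, mul_inv_cancel₀ hx0, one_mul]
    have := congrArg (fun t : K => (t : Qb)) h1
    simpa using this
  have : A.valuation ((((d : 𝓞 K) : K)) : Qb) < 1 := by
    rw [e, map_mul]
    exact mul_lt_one_of_nonneg_of_lt_one_right hxA zero_le hnA
  rw [hdA] at this
  exact lt_irrefl _ this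

/-- The rational prime under `A` lies in `v`. -/
theorem natCast_mem_asIdeal (hA : A.LiesOverPrime q) (hAv : LiesOverHeightOne K A v) :
    ((q : ℕ) : 𝓞 K) ∈ v.asIdeal := by
  by_contra hq
  have h1 := Fermat.Agent.H73.KD2.valuation_eq_one_of_notMem hAv hq
  have h2 : A.valuation (q : Qb) < 1 := A.mem_nonunits_iff.mp hA
  have e : (((((q : ℕ) : 𝓞 K) : K)) : Qb) = (q : Qb) := by simp
  rw [e] at h1
  rw [h1] at h2
  exact lt_irrefl _ h2

theorem valuation_natCast_le (hA : A.LiesOverPrime q) (hAv : LiesOverHeightOne K A v) :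
    v.valuation K ((q : ℕ) : K) ≤ WithZero.exp (-1 : ℤ) := by
  have h1 : v.intValuation ((q : ℕ) : 𝓞 K) ≤ WithZero.exp (-((1 : ℕ) : ℤ)) := by
    rw [v.intValuation_le_pow_iff_mem, pow_one]
    exact natCast_mem_asIdeal hA hAv
  have h2 : v.valuation K (algebraMap (𝓞 K) K ((q : ℕ) : 𝓞 K)) = v.intValuation ((q : ℕ) : 𝓞 K) :=
    v.valuation_of_algebraMap _
  have e : algebraMap (𝓞 K) K ((q : ℕ) : 𝓞 K) = ((q : ℕ) : K) := by simp
  rw [e] at h2
  rw [h2]
  simpa using h1

/-- An element of `K` divisible by `q ^ n` at `A` has `v`-adic valuation at most `exp (-n)`. -/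
theorem valuation_le_exp_of_div_mem (hq : q.Prime) (hA : A.LiesOverPrime q)
    (hAv : LiesOverHeightOne K A v) (x : K) (n : ℕ) (hx : (x : Qb) / (q : Qb) ^ n ∈ A) :
    v.valuation K x ≤ WithZero.exp (-(n : ℤ)) := by
  have hq0 : ((q : ℕ) : K) ≠ 0 := Nat.cast_ne_zero.mpr hq.ne_zero
  have h1 : v.valuation K (x / ((q : ℕ) : K) ^ n) ≤ 1 := by
    apply valuation_le_one_of_mem hAv
    have e : (((x / ((q : ℕ) : K) ^ n : K)) : Qb) = (x : Qb) / (q : Qb) ^ n := by simp
    rw [e]
    exact hx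
  have h2 : x = x / ((q : ℕ) : K) ^ n * ((q : ℕ) : K) ^ n := by
    rw [div_mul_cancel₀ _ (pow_ne_zero n hq0)]
  rw [h2, map_mul, map_pow]
  calc v.valuation K (x / ((q : ℕ) : K) ^ n) * v.valuation K ((q : ℕ) : K) ^ n
      ≤ 1 * (WithZero.exp (-1 : ℤ)) ^ n :=
        mul_le_mul' h1 (pow_le_pow_left₀ zero_le (valuation_natCast_le hA hAv) n)
    _ = WithZero.exp (-(n : ℤ)) := by
        rw [one_mul, ← WithZero.exp_nsmul]
        simp

end dict

/-! ### Approximation -/

section approx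

variable {K : IntermediateField ℚ Qb} {A : ValuationSubring Qb} {q : ℕ}

/-- Elements of `M (decField A)` are approximated by elements of `M`. -/
theorem exists_approx (hDD : DecDenseStatement) (hq : q.Prime) (hA : A.LiesOverPrime q)
    (M : IntermediateField K Qb) (z : Qb)
    (hz : z ∈ M.restrictScalars ℚ ⊔ locFieldAt K A) (N : ℕ) :
    ∃ y' : M, (z - (y' : Qb)) / (q : Qb) ^ N ∈ A := by
  have hgal := Fermat.Agent.H73.KD2.isGalois_Qbar_kd2
  have hq0 : (q : Qb) ≠ 0 := natCast_ne_zero hq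
  have hsup : M.restrictScalars ℚ ⊔ locFieldAt K A = M.restrictScalars ℚ ⊔ decField A := by
    unfold locFieldAt
    rw [← sup_assoc, sup_eq_left.mpr (le_restrictScalars M)]
  rw [hsup] at hz
  have halg : Algebra.IsAlgebraic ℚ ↥(M.restrictScalars ℚ) :=
    ⟨fun x => IntermediateField.isAlgebraic_iff.mpr
      (Algebra.IsSeparable.isIntegral ℚ (x : Qb)).isAlgebraic⟩
  have hz' : z ∈ (M.restrictScalars ℚ ⊔ decField A).toSubalgebra := hz
  rw [IntermediateField.sup_toSubalgebra_of_isAlgebraic_left, ← Subalgebra.mem_toSubmodule,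
    ← Subalgebra.mul_toSubmodule] at hz'
  clear hz
  revert N
  refine Submodule.mul_induction_on hz' ?_ ?_
  · intro m₀ hm₀ d hd N
    obtain ⟨N₀, hN₀⟩ := exists_mul_pow_mem hq hA m₀
    obtain ⟨r, hr⟩ := hDD q hq A hA d hd (N + N₀)
    have hm₀M : m₀ ∈ M := hm₀
    refine ⟨⟨m₀ * algebraMap ℚ Qb r, M.mul_mem hm₀M ?_⟩, ?_⟩
    · have : algebraMap ℚ Qb r ∈ M.restrictScalars ℚ := (M.restrictScalars ℚ).algebraMap_mem r
      exact this
    · have e : (m₀ * d - m₀ * algebraMap ℚ Qb r) / (q : Qb) ^ N =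
          (m₀ * (q : Qb) ^ N₀) * ((d - algebraMap ℚ Qb r) / (q : Qb) ^ (N + N₀)) := by
        rw [pow_add]
        field_simp
      show (m₀ * d - m₀ * algebraMap ℚ Qb r) / (q : Qb) ^ N ∈ A
      rw [e]
      exact A.mul_mem _ _ hN₀ hr
  · intro z₁ z₂ h₁ h₂ N
    obtain ⟨y₁, hy₁⟩ := h₁ N
    obtain ⟨y₂, hy₂⟩ := h₂ N
    refine ⟨y₁ + y₂, ?_⟩
    have e : (z₁ + z₂ - ((y₁ + y₂ : M) : Qb)) / (q : Qb) ^ N =
        (z₁ - (y₁ : Qb)) / (q : Qb) ^ N + (z₂ - (y₂ : Qb)) / (q : Qb) ^ N := by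
      push_cast
      ring
    rw [e]
    exact A.add_mem _ _ hy₁ hy₂

/-- The Galois group of the local field preserves the place. -/
theorem pow_apply_mem (hDC : DecClosedStatement) (hq : q.Prime) (hA : A.LiesOverPrime q)
    (s : (locFieldAt K A).fixingSubgroup) (k : ℕ) {x : Qb} (hx : x ∈ A) :
    ((s : Qb ≃ₐ[ℚ] Qb) ^ k) x ∈ A := by
  have h1 : ((s : Qb ≃ₐ[ℚ] Qb) ^ k) ∈ (locFieldAt K A).fixingSubgroup :=
    Subgroup.pow_mem _ s.2 k
  have h2 : ((s : Qb ≃ₐ[ℚ] Qb) ^ k) ∈ (decField A).fixingSubgroup :=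
    IntermediateField.fixingSubgroup_le (show decField A ≤ locFieldAt K A from le_sup_right) h1
  rw [hDC q hq A hA] at h2
  have h3 : ((s : Qb ≃ₐ[ℚ] Qb) ^ k) • A = A := h2
  have h4 := ValuationSubring.smul_mem_pointwise_smul ((s : Qb ≃ₐ[ℚ] Qb) ^ k) x A hx
  rw [h3] at h4
  exact h4

/-- A product of elements congruent to `1` modulo `c` is congruent to `1` modulo `c`. -/
theorem prod_sub_one_div_mem (A : ValuationSubring Qb) {c : Qb} (hc : c ∈ A) (hc0 : c ≠ 0)
    (p : ℕ) (t : ℕ → Qb) (ht : ∀ k < p, (t k - 1) / c ∈ A) :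
    (∏ k ∈ Finset.range p, t k - 1) / c ∈ A := by
  induction p with
  | zero => simp
  | succ p ih =>
    have h1 := ih fun k hk => ht k (Nat.lt_succ_of_lt hk)
    have h2 := ht p (Nat.lt_succ_self p)
    have h3 : t p ∈ A := by
      have e : t p = 1 + c * ((t p - 1) / c) := by
        field_simp
        ring
      rw [e]
      exact A.add_mem _ _ A.one_mem (A.mul_mem _ _ hc h2)
    have e : (∏ k ∈ Finset.range (p + 1), t k - 1) / c =
        (∏ k ∈ Finset.range p, t k - 1) / c * t p + (t p - 1) / c := by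
      rw [Finset.prod_range_succ]
      field_simp
      ring
    rw [e]
    exact A.add_mem _ _ (A.mul_mem _ _ h1 h3) h2

/-- An element congruent to `1` modulo `q ^ n`, `n ≥ 1`, is not zero. -/
theorem ne_zero_of_sub_one_div_mem (hq : q.Prime) (hA : A.LiesOverPrime q) {w : Qb} {n : ℕ}
    (hn : 1 ≤ n) (h : (w - 1) / (q : Qb) ^ n ∈ A) : w ≠ 0 := by
  rintro rfl
  have hq0 : (q : Qb) ≠ 0 := natCast_ne_zero hq
  have h1 : A.valuation ((0 - 1) / (q : Qb) ^ n) ≤ 1 := (A.valuation_le_one_iff _).mpr h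
  have h2 : A.valuation ((q : Qb) ^ n) < 1 := by
    rw [map_pow]
    exact pow_lt_one₀ zero_le (A.mem_nonunits_iff.mp hA) (by omega)
  have h3 : A.valuation (((0 : Qb) - 1) / (q : Qb) ^ n * (q : Qb) ^ n) < 1 := by
    rw [map_mul]
    exact mul_lt_one_of_nonneg_of_lt_one_right h1 zero_le h2
  rw [div_mul_cancel₀ _ (pow_ne_zero n hq0), zero_sub, Valuation.map_neg, map_one] at h3
  exact lt_irrefl _ h3

end approx

/-! ### The norm as a product over the powers of a lift of the generator -/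

section norm

variable {K : IntermediateField ℚ Qb} (M : IntermediateField K Qb) [FiniteDimensional K M]
  [IsGalois K M]

omit [FiniteDimensional ↥K ↥M] in
theorem resEF_apply_coe' (g : K.fixingSubgroup) (z : M) :
    ((resEF K M g z : M) : Qb) = (g : Qb ≃ₐ[ℚ] Qb) (z : Qb) := by
  change algebraMap M Qb
    ((AlgEquiv.restrictNormal (IntermediateField.fixingSubgroupEquiv K g) M) z) = _
  rw [AlgEquiv.restrictNormal_commutes]
  rfl

theorem prod_pow_apply_eq_norm {p : ℕ} (hp : Module.finrank K M = p) {σ : M ≃ₐ[K] M}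
    (hσ : IsGen σ) {E : IntermediateField ℚ Qb} (hKE : K ≤ E) (s : E.fixingSubgroup)
    (hs : resEF K M (incl hKE s) = σ) (y' : M) :
    ∏ k ∈ Finset.range p, ((s : Qb ≃ₐ[ℚ] Qb) ^ k) (y' : Qb) =
      (((Algebra.norm K y' : K)) : Qb) := by
  classical
  have h1 : algebraMap K M (Algebra.norm K y') = ∏ τ : M ≃ₐ[K] M, τ y' :=
    Algebra.norm_eq_prod_automorphisms K y'
  rw [IsGen.prod_univ_eq hσ, hσ.orderOf_eq_finrank, hp] at h1
  have h2 : ((algebraMap K M (Algebra.norm K y') : M) : Qb) =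
      ((∏ k ∈ Finset.range p, (σ ^ k) y' : M) : Qb) := congrArg (fun t : M => (t : Qb)) h1
  have h3 : ((algebraMap K M (Algebra.norm K y') : M) : Qb) = (((Algebra.norm K y' : K)) : Qb) :=
    rfl
  rw [h3] at h2
  rw [h2]
  have h4 : ((∏ k ∈ Finset.range p, (σ ^ k) y' : M) : Qb) =
      ∏ k ∈ Finset.range p, (((σ ^ k) y' : M) : Qb) := by
    exact map_prod (algebraMap M Qb) _ _
  rw [h4]
  refine Finset.prod_congr rfl fun k _ => ?_
  rw [← hs, ← map_pow, resEF_apply_coe']
  rfl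

end norm

/-! ### The theorem -/

/-- **[HS-B3] NormApprox**: a norm from the local field `M E`, `E = K ⊔ decField A`, is a
`v`-adic limit of norms from `M`. -/
theorem normApprox (hDC : DecClosedStatement) (hDD : DecDenseStatement) :
    NormApproxStatement := by
  intro p _ K _ M _ _ _ hp σ hσ a q hq A hA v hAv s y hs hy ha
  have hq0 : (q : Qb) ≠ 0 := natCast_ne_zero hq
  unfold Fermat.Agent.H43.Cft.locNorm Fermat.Agent.H43.Cft.vClosure
  rw [Subgroup.mem_iInf]
  intro m
  set n : ℕ := m + 1 with hn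
  have hy0 : (y : Qb) ≠ 0 := y.ne_zero
  -- approximation of `y`
  obtain ⟨N₁, hN₁⟩ := exists_mul_pow_mem hq hA (y : Qb)⁻¹
  obtain ⟨y', hy'⟩ := exists_approx hDD hq hA M (y : Qb) hy (n + N₁)
  set t : Qb := (y' : Qb) / (y : Qb) with ht
  have ht1 : (t - 1) / (q : Qb) ^ n ∈ A := by
    have e : (t - 1) / (q : Qb) ^ n =
        -(((y : Qb) - (y' : Qb)) / (q : Qb) ^ (n + N₁) * ((y : Qb)⁻¹ * (q : Qb) ^ N₁)) := by
      rw [ht, pow_add]
      field_simp
      ring
    rw [e]
    exact A.neg_mem _ (A.mul_mem _ _ hy' hN₁)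
  -- the conjugates of `t`
  have hk : ∀ k < p, (((s : Qb ≃ₐ[ℚ] Qb) ^ k) t - 1) / (q : Qb) ^ n ∈ A := by
    intro k _
    have h1 := pow_apply_mem hDC hq hA s k ht1
    have e : ((s : Qb ≃ₐ[ℚ] Qb) ^ k) ((t - 1) / (q : Qb) ^ n) =
        (((s : Qb ≃ₐ[ℚ] Qb) ^ k) t - 1) / (q : Qb) ^ n := by
      rw [map_div₀, map_sub, map_one, map_pow, map_natCast]
    rwa [e] at h1
  have hprod := prod_sub_one_div_mem A (natCast_pow_mem A q n) (pow_ne_zero n hq0) p
    (fun k => ((s : Qb ≃ₐ[ℚ] Qb) ^ k) t) hk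
  -- the product is `N(y') / a`
  have hN := prod_pow_apply_eq_norm M hp hσ (le_locFieldAt K A) s hs y'
  have ha0 : ((a : K) : Qb) ≠ 0 := by
    intro h
    have : (a : K) = 0 := by exact_mod_cast h
    exact a.ne_zero this
  have hprod_eq : ∏ k ∈ Finset.range p, ((s : Qb ≃ₐ[ℚ] Qb) ^ k) t =
      (((Algebra.norm K y' / (a : K) : K)) : Qb) := by
    have h1 : ∀ k ∈ Finset.range p, ((s : Qb ≃ₐ[ℚ] Qb) ^ k) t =
        ((s : Qb ≃ₐ[ℚ] Qb) ^ k) (y' : Qb) / ((s : Qb ≃ₐ[ℚ] Qb) ^ k) (y : Qb) := by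
      intro k _
      rw [ht, map_div₀]
    rw [Finset.prod_congr rfl h1, Finset.prod_div_distrib, hN, ← ha]
    simp
  rw [hprod_eq] at hprod
  set w : K := Algebra.norm K y' / (a : K) with hw
  have hw0 : w ≠ 0 := by
    intro h
    have h2 := ne_zero_of_sub_one_div_mem hq hA (n := n) (by omega) hprod
    apply h2
    rw [h]
    simp
  have hNy0 : Algebra.norm K y' ≠ 0 := by
    intro h
    apply hw0
    rw [hw, h, zero_div]
  have hy'0 : y' ≠ 0 := by
    rintro rfl
    have h2 := ne_zero_of_sub_one_div_mem hq hA (n := n) (by omega) ht1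
    apply h2
    rw [ht]
    simp
  -- `w` is a principal unit
  have hwP : Units.mk0 w hw0 ∈ Fermat.Agent.H43.Cft.principalUnits K v m := by
    rw [Fermat.Agent.H43.Cft.mem_principalUnits]
    have h1 := valuation_le_exp_of_div_mem hq hA hAv (w - 1) n (by
      have e : (((w - 1 : K)) : Qb) = ((w : K) : Qb) - 1 := by simp
      rw [e]
      exact hprod)
    have e2 : -((m : ℤ) + 1) = -((n : ℕ) : ℤ) := by
      rw [hn]
      push_cast
      ring
    rw [e2]
    exact h1
  -- conclusion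
  have hNmem : Units.map (Algebra.norm K : M →* K) (Units.mk0 y' hy'0) ∈
      Fermat.Agent.H43.Cft.normSubgroup K M := ⟨Units.mk0 y' hy'0, rfl⟩
  have hfinal : a = Units.map (Algebra.norm K : M →* K) (Units.mk0 y' hy'0) *
      (Units.mk0 w hw0)⁻¹ := by
    apply Units.ext
    rw [Units.val_mul, Units.val_inv_eq_inv_val, Units.val_mk0, Units.coe_map, Units.val_mk0, hw]
    show (a : K) = Algebra.norm K y' * (Algebra.norm K y' / (a : K))⁻¹
    field_simp
  rw [hfinal]
  exact Subgroup.mul_mem_sup hNmem (Subgroup.inv_mem _ hwP)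

end Fermat.Agent.H87.Hasse

end
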